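import Fermat.Agent.S48.LF.IdemAux

/-!
# S48 / LF-Idem : lifting idempotent matrices over a valuation ring of an algebraically closed field

`B` a valuation ring of an algebraically closed field `K`, `res : B → κ` the residue map,
`x ∈ M_n(B)` with `x̄ = x.map res` idempotent.  CLAIM: there is a polynomial `P ∈ B[X]` such that
`e = P(x)` is idempotent and `ē = x̄`.

PROOF.
1. `χ := x.charpoly ∈ B[X]` is monic.  Its image in `K[X]` splits (`IsAlgClosed.splits`); every root
   `α ∈ K` is integral over `B` (`⟨χ, monic, _⟩`), hence lies in `B`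
   (`IsIntegrallyClosed.isIntegral_iff`, instances `ValuationSubring` : `IsIntegrallyClosed B`,
   `IsFractionRing B K`).  So there is a multiset `s` of elements of `B` with
   `χ = (s.map fun a => X - C a).prod`  (`exists_multiset_roots` below; injectivity of
   `Polynomial.map (algebraMap B K)`).
2. every `a ∈ s` satisfies `res a = 0 ∨ res a = 1` (`residue_root` below): `χ̄ = x̄.charpoly`
   (`Matrix.charpoly_map`), `χ̄(c) = det (c • 1 - x̄)` (`Matrix.eval_charpoly`); if `c ≠ 0, 1` then
   `(c - x̄) * (c⁻¹ (1 - x̄) + (c-1)⁻¹ x̄) = 1`, so the determinant is a unit.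
3. `s₀ := s.filter (res a = 0)`, `s₁ := s.filter (res a ≠ 0)`, `χ₀ := X * ∏_{s₀} (X - C a)`,
   `χ₁ := (X - 1) * ∏_{s₁} (X - C a)`; `χ₀ * χ₁ = X * (X - 1) * χ`.  `IsCoprime χ₀ χ₁`: for `a` with
   `res a = 0` and `b` with `res b = 1`, `(X - C a) - (X - C b) = C (b - a)` and `b - a` is a unit of the
   local ring `B` (its residue is `1`); `IsCoprime.multiset_prod_left/right`-type lemmas or induction
   (`IsCoprime.mul_left`, `IsCoprime.mul_right`).
4. `u χ₀ + v χ₁ = 1`, `P := u χ₀`.  `P (1 - P) = u v X (X-1) χ`, so `e (1 - e) = 0` by Cayley-Hamilton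
   (`Matrix.aeval_self_charpoly`).  `P(0) = 0`, `P(1) = 1 - v(1) χ₁(1) = 1`.
5. for an idempotent `y` of a `κ`-algebra and `p ∈ κ[X]`: `p(y) = p(0) (1 - y) + p(1) y`
   (`aeval_idempotent` below, induction on `p`).  `(aeval x P).map res = aeval x̄ (P.map res)`
   (`map_aeval_matrix` below).  Hence `ē = x̄`.
-/

set_option autoImplicit false

namespace Fermat.Agent.S48.LF

open Polynomial

variable {K : Type*} [Field K] [IsAlgClosed K] (B : ValuationSubring K)
  {n : Type*} [Fintype n] [DecidableEq n]

omit [IsAlgClosed K] in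
theorem Idem_isCoprime_linear {a b : B} (ha : IsLocalRing.residue B a = 0)
    (hb : IsLocalRing.residue B b = 1) : IsCoprime (X - C a : B[X]) (X - C b) := by
  have hu : IsUnit (b - a) := by
    have : IsUnit (IsLocalRing.residue B (b - a)) := by
      rw [map_sub, ha, hb, sub_zero]; exact isUnit_one
    exact (isUnit_map_iff (IsLocalRing.residue B) _).mp this
  obtain ⟨u, hu⟩ := hu
  refine ⟨C (↑u⁻¹ : B), - C (↑u⁻¹ : B), ?_⟩
  have : C (↑u⁻¹ : B) * (X - C a) + - C (↑u⁻¹ : B) * (X - C b) = C ((↑u⁻¹ : B) * (b - a)) := by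
    rw [C_mul, C_sub]; ring
  rw [this, ← hu, Units.inv_mul, C_1]

omit [IsAlgClosed K] in
theorem Idem_isCoprime_prod (s₀ s₁ : Multiset B) (h₀ : ∀ a ∈ s₀, IsLocalRing.residue B a = 0)
    (h₁ : ∀ b ∈ s₁, IsLocalRing.residue B b = 1) :
    IsCoprime (s₀.map fun a => (X - C a : B[X])).prod (s₁.map fun a => (X - C a : B[X])).prod := by
  induction s₀ using Multiset.induction_on with
  | empty => simpa using isCoprime_one_left
  | cons a s ih =>
    rw [Multiset.map_cons, Multiset.prod_cons]
    refine IsCoprime.mul_left ?_ (ih fun x hx => h₀ x (Multiset.mem_cons_of_mem hx))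
    have ha := h₀ a (Multiset.mem_cons_self a s)
    clear ih h₀
    induction s₁ using Multiset.induction_on with
    | empty => simpa using isCoprime_one_right
    | cons b t ih' =>
      rw [Multiset.map_cons, Multiset.prod_cons]
      exact IsCoprime.mul_right (Idem_isCoprime_linear B ha (h₁ b (Multiset.mem_cons_self b t)))
        (ih' fun x hx => h₁ x (Multiset.mem_cons_of_mem hx))

/-- **LF-Idem.** -/
theorem exists_idempotent_lift (x : Matrix n n B)
    (hx : IsIdempotentElem (x.map (IsLocalRing.residue B))) :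
    ∃ P : B[X], IsIdempotentElem (aeval x P) ∧
      (aeval x P).map (IsLocalRing.residue B) = x.map (IsLocalRing.residue B) := by
  classical
  obtain ⟨s, hs⟩ := exists_multiset_roots B x.charpoly (Matrix.charpoly_monic x)
  have hres : ∀ a ∈ s, IsLocalRing.residue B a = 0 ∨ IsLocalRing.residue B a = 1 := by
    intro a ha
    apply residue_root B x hx a
    rw [hs, eval_multiset_prod, Multiset.map_map]
    apply Multiset.prod_eq_zero
    rw [Multiset.mem_map]
    exact ⟨a, ha, by simp⟩
  set s₀ := (0 : B) ::ₘ s.filter (fun a => IsLocalRing.residue B a = 0) with hs₀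
  set s₁ := (1 : B) ::ₘ s.filter (fun a => ¬ IsLocalRing.residue B a = 0) with hs₁
  set χ₀ : B[X] := (s₀.map fun a => (X - C a : B[X])).prod with hχ₀
  set χ₁ : B[X] := (s₁.map fun a => (X - C a : B[X])).prod with hχ₁
  have hcop : IsCoprime χ₀ χ₁ := by
    apply Idem_isCoprime_prod
    · intro a ha
      rw [hs₀, Multiset.mem_cons] at ha
      rcases ha with rfl | ha
      · exact map_zero _
      · exact (Multiset.mem_filter.mp ha).2
    · intro b hb
      rw [hs₁, Multiset.mem_cons] at hb
      rcases hb with rfl | hb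
      · exact map_one _
      · obtain ⟨hb1, hb2⟩ := Multiset.mem_filter.mp hb
        exact (hres b hb1).resolve_left hb2
  have hprod : χ₀ * χ₁ = X * (X - 1) * x.charpoly := by
    have h1 : x.charpoly = ((s.filter (fun a => IsLocalRing.residue B a = 0)).map
        fun a => (X - C a : B[X])).prod * ((s.filter (fun a => ¬ IsLocalRing.residue B a = 0)).map
        fun a => (X - C a : B[X])).prod := by
      rw [← Multiset.prod_add, ← Multiset.map_add, Multiset.filter_add_not, ← hs]
    rw [h1, hχ₀, hχ₁, hs₀, hs₁]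
    simp only [Multiset.map_cons, Multiset.prod_cons, C_0, sub_zero, C_1]
    ring
  obtain ⟨u, v, huv⟩ := hcop
  have h0 : χ₀.eval 0 = 0 := by
    rw [hχ₀, hs₀]; simp
  have h1 : χ₁.eval 1 = 0 := by
    rw [hχ₁, hs₁]; simp
  refine ⟨u * χ₀, ?_, ?_⟩
  · have hP : (u * χ₀) * (u * χ₀) = u * χ₀ - u * v * X * (X - 1) * x.charpoly := by
      have : u * χ₀ = 1 - v * χ₁ := by rw [← huv]; ring
      calc (u * χ₀) * (u * χ₀) = (u * χ₀) * (1 - v * χ₁) := by rw [← this]
        _ = u * χ₀ - u * v * (χ₀ * χ₁) := by ring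
        _ = _ := by rw [hprod]; ring
    show aeval x (u * χ₀) * aeval x (u * χ₀) = aeval x (u * χ₀)
    rw [← map_mul, hP, map_sub, map_mul _ _ x.charpoly, Matrix.aeval_self_charpoly, mul_zero, sub_zero]
  · rw [map_aeval_matrix, aeval_idempotent hx]
    have e0 : ((u * χ₀).map (IsLocalRing.residue B)).eval 0 = 0 := by
      rw [← map_zero (IsLocalRing.residue B), eval_map, eval₂_hom, eval_mul, h0, mul_zero, map_zero]
    have e1 : ((u * χ₀).map (IsLocalRing.residue B)).eval 1 = 1 := by
      have : (u * χ₀).eval 1 = 1 := by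
        have h := congrArg (eval 1) huv
        rw [eval_add, eval_mul (p := v), h1, mul_zero, add_zero, eval_one] at h
        exact h
      rw [← map_one (IsLocalRing.residue B), eval_map, eval₂_hom, this]
    rw [e0, e1, zero_smul, one_smul, zero_add]

end Fermat.Agent.S48.LF
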