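import Mathlib

/-!
# S48 / LF-IdemAux : auxiliary lemmas (steps 1, 2, 5) for lifting idempotent matrices over a valuation ring of an algebraically closed field

`B` a valuation ring of an algebraically closed field `K`, `res : B → κ` the residue map,
`x ∈ M_n(B)` with `x̄ = x.map res` idempotent.  CLAIM: there is a polynomial `P ∈ B[X]` such that
`e = P(x)` is idempotent and `ē = x̄`.

PROOF.
1. `χ := x.charpoly ∈ B[X]` is monic.  Its image in `K[X]` splits (`IsAlgClosed.splits`); every root
   `α ∈ K` is integral over `B` (`⟨χ, monic, _⟩`), hence lies in `B`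
   (`IsIntegrallyClosed.isIntegral_iff`, instances `ValuationSubring` : `IsIntegrallyClosed B`,
   `IsFractionRing B K`).  So there is a multiset `s` of elements of `B` with
   `χ = (s.map fun a => X - C a).prod`  (`exists_multiset_roots` below; injectivity of
   `Polynomial.map (algebraMap B K)`).
2. every `a ∈ s` satisfies `res a = 0 ∨ res a = 1` (`residue_root` below): `χ̄ = x̄.charpoly`
   (`Matrix.charpoly_map`), `χ̄(c) = det (c • 1 - x̄)` (`Matrix.eval_charpoly`); if `c ≠ 0, 1` then
   `(c - x̄) * (c⁻¹ (1 - x̄) + (c-1)⁻¹ x̄) = 1`, so the determinant is a unit.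
3. `s₀ := s.filter (res a = 0)`, `s₁ := s.filter (res a ≠ 0)`, `χ₀ := X * ∏_{s₀} (X - C a)`,
   `χ₁ := (X - 1) * ∏_{s₁} (X - C a)`; `χ₀ * χ₁ = X * (X - 1) * χ`.  `IsCoprime χ₀ χ₁`: for `a` with
   `res a = 0` and `b` with `res b = 1`, `(X - C a) - (X - C b) = C (b - a)` and `b - a` is a unit of the
   local ring `B` (its residue is `1`); `IsCoprime.multiset_prod_left/right`-type lemmas or induction
   (`IsCoprime.mul_left`, `IsCoprime.mul_right`).
4. `u χ₀ + v χ₁ = 1`, `P := u χ₀`.  `P (1 - P) = u v X (X-1) χ`, so `e (1 - e) = 0` by Cayley-Hamilton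
   (`Matrix.aeval_self_charpoly`).  `P(0) = 0`, `P(1) = 1 - v(1) χ₁(1) = 1`.
5. for an idempotent `y` of a `κ`-algebra and `p ∈ κ[X]`: `p(y) = p(0) (1 - y) + p(1) y`
   (`aeval_idempotent` below, induction on `p`).  `(aeval x P).map res = aeval x̄ (P.map res)`
   (`map_aeval_matrix` below).  Hence `ē = x̄`.
-/

set_option autoImplicit false

namespace Fermat.Agent.S48.LF

open Polynomial

theorem aeval_idempotent {κ A : Type*} [CommRing κ] [Ring A] [Algebra κ A] {y : A}
    (hy : IsIdempotentElem y) (p : κ[X]) :
    aeval y p = p.eval 0 • (1 - y) + p.eval 1 • y := by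
  induction p using Polynomial.induction_on' with
  | add p q hp hq =>
    rw [map_add, hp, hq, eval_add, eval_add, add_smul, add_smul]
    abel
  | monomial k a =>
    rw [aeval_monomial, eval_monomial, eval_monomial, one_pow, mul_one]
    rcases Nat.eq_zero_or_pos k with rfl | hk
    · simp only [pow_zero, mul_one]
      rw [Algebra.algebraMap_eq_smul_one, ← smul_add]
      simp
    · rw [hy.pow_eq hk.ne', zero_pow hk.ne', mul_zero, zero_smul, zero_add, Algebra.smul_def]

theorem map_aeval_matrix {R S n : Type*} [CommRing R] [CommRing S] [Fintype n] [DecidableEq n]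
    (f : R →+* S) (x : Matrix n n R) (P : R[X]) :
    (aeval x P).map f = aeval (x.map f) (P.map f) := by
  have h : ∀ M : Matrix n n R, M.map f = f.mapMatrix M := fun M => rfl
  induction P using Polynomial.induction_on' with
  | add p q hp hq =>
    rw [Polynomial.map_add, map_add, map_add, ← hp, ← hq, h, h, h, map_add]
  | monomial k a =>
    rw [Polynomial.map_monomial, aeval_monomial, aeval_monomial, h, h, map_mul, map_pow]
    congr 1
    ext i j
    simp [Matrix.algebraMap_matrix_apply]
    split_ifs <;> simp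

variable {K : Type*} [Field K] [IsAlgClosed K] (B : ValuationSubring K)

theorem exists_multiset_roots (χ : B[X]) (hχ : χ.Monic) :
    ∃ s : Multiset B, χ = (s.map fun a => X - C a).prod := by
  have hsplit : (χ.map (algebraMap B K)).Splits := IsAlgClosed.splits _
  have hmon : (χ.map (algebraMap B K)).Monic := hχ.map _
  have hroots : ∀ α ∈ (χ.map (algebraMap B K)).roots, ∃ b : B, algebraMap B K b = α := by
    intro α hα
    have hint : IsIntegral B α := by
      refine ⟨χ, hχ, ?_⟩
      have := Polynomial.isRoot_of_mem_roots hα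
      rwa [IsRoot.def, eval_map] at this
    exact IsIntegrallyClosed.isIntegral_iff.mp hint
  obtain ⟨s, hs⟩ : ∃ s : Multiset B, s.map (algebraMap B K) = (χ.map (algebraMap B K)).roots := by
    generalize (χ.map (algebraMap B K)).roots = t at hroots
    induction t using Multiset.induction_on with
    | empty => exact ⟨0, rfl⟩
    | cons a t ih =>
      obtain ⟨s, hs⟩ := ih (fun α hα => hroots α (Multiset.mem_cons_of_mem hα))
      obtain ⟨b, hb⟩ := hroots a (Multiset.mem_cons_self a t)
      exact ⟨b ::ₘ s, by rw [Multiset.map_cons, hs, hb]⟩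
  refine ⟨s, ?_⟩
  apply Polynomial.map_injective (algebraMap B K) (IsFractionRing.injective B K)
  rw [Polynomial.map_multiset_prod, Multiset.map_map]
  have h1 := hsplit.eq_prod_roots_of_monic hmon
  rw [h1, ← hs, Multiset.map_map]
  congr 1
  apply Multiset.map_congr rfl
  intro a _
  simp

variable {n : Type*} [Fintype n] [DecidableEq n]

omit [IsAlgClosed K] in
theorem residue_root (x : Matrix n n B) (hx : IsIdempotentElem (x.map (IsLocalRing.residue B)))
    (a : B) (ha : x.charpoly.eval a = 0) :
    IsLocalRing.residue B a = 0 ∨ IsLocalRing.residue B a = 1 := by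
  set c := IsLocalRing.residue B a with hc
  set y := x.map (IsLocalRing.residue B) with hy
  have h1 : y.charpoly.eval c = 0 := by
    rw [hy, Matrix.charpoly_map, hc, eval_map, eval₂_hom, ha, map_zero]
  rw [Matrix.eval_charpoly] at h1
  by_contra hcon
  push Not at hcon
  obtain ⟨h0, h1'⟩ := hcon
  have hc1 : c - 1 ≠ 0 := sub_ne_zero.mpr h1'
  have hyy : y * y = y := hx
  have hmul : (Matrix.scalar n c - y) * (c⁻¹ • (1 - y) + (c - 1)⁻¹ • y) = 1 := by
    have hs : Matrix.scalar n c = c • (1 : Matrix n n _) := by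
      ext i j; simp [Matrix.scalar_apply, Matrix.diagonal_apply, Matrix.one_apply]
    rw [hs]
    have e1 : (c • (1 : Matrix n n _) - y) * (c⁻¹ • (1 - y) + (c - 1)⁻¹ • y)
        = (c * c⁻¹) • (1 - y) + ((c - 1) * (c - 1)⁻¹) • y := by
      simp only [mul_add, sub_mul, Matrix.smul_mul, Matrix.mul_smul, mul_sub,
        Matrix.mul_one, hyy, sub_self, smul_zero, sub_zero, smul_smul, sub_smul, one_mul]
      rw [← smul_sub, smul_smul, mul_comm c⁻¹ c, mul_comm (c - 1)⁻¹ c]
    rw [e1, mul_inv_cancel₀ h0, mul_inv_cancel₀ hc1]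
    simp
  have := congrArg Matrix.det hmul
  rw [Matrix.det_mul, h1, zero_mul, Matrix.det_one] at this
  exact zero_ne_one this

end Fermat.Agent.S48.LF
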