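import Mathlib

/-!
# S48 / LF-Integral : trace and determinant of a complex matrix of finite order are algebraic integers

PROOF.  `Matrix.trace_eq_sum_roots_charpoly`, `Matrix.det_eq_prod_roots_charpoly` (`ℂ` algebraically closed);
`IsIntegral.multiset_sum`, `IsIntegral.multiset_prod`.  Every root `μ` of `A.charpoly` satisfies `μ ^ m = 1`:
`det (μ • 1 - A) = 0` (`Matrix.eval_charpoly`), so there is `v ≠ 0` with `A *ᵥ v = μ • v`
(`Matrix.exists_mulVec_eq_zero_iff`), `A ^ m *ᵥ v = μ ^ m • v` by induction, so `(μ ^ m - 1) • v = 0`.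
(or: `Matrix.mem_spectrum_iff_isRoot_charpoly` + `spectrum` mapping lemmas.)  `IsIntegral.of_pow`.
-/

set_option autoImplicit false

namespace Fermat.Agent.S48.LF

theorem pow_eq_one_of_isRoot_charpoly {n : Type*} [Fintype n] [DecidableEq n] (A : Matrix n n ℂ)
    {m : ℕ} (hA : A ^ m = 1) {μ : ℂ} (hμ : A.charpoly.IsRoot μ) : μ ^ m = 1 := by
  have h1 : (Matrix.scalar n μ - A).det = 0 := by
    have := Matrix.eval_charpoly A μ
    rw [← this]; exact hμ
  obtain ⟨v, hv0, hv⟩ := Matrix.exists_mulVec_eq_zero_iff.mpr h1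
  have h2 : A.mulVec v = μ • v := by
    rw [Matrix.sub_mulVec, sub_eq_zero] at hv
    rw [← hv]
    ext i
    simp [Matrix.mulVec, dotProduct, Matrix.scalar_apply, Matrix.diagonal_apply]
  have h3 : ∀ k : ℕ, (A ^ k).mulVec v = μ ^ k • v := by
    intro k
    induction k with
    | zero => simp
    | succ k ih =>
      rw [pow_succ, ← Matrix.mulVec_mulVec, h2, Matrix.mulVec_smul, ih, smul_smul, pow_succ, mul_comm]
  have h4 := h3 m
  rw [hA, Matrix.one_mulVec] at h4
  have h5 : (μ ^ m - 1) • v = 0 := by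
    rw [sub_smul, one_smul, ← h4, sub_self]
  rcases smul_eq_zero.mp h5 with h | h
  · exact sub_eq_zero.mp h
  · exact absurd h hv0

theorem isIntegral_trace_det_of_pow_eq_one {n : Type*} [Fintype n] [DecidableEq n]
    (A : Matrix n n ℂ) {m : ℕ} (hm : 0 < m) (hA : A ^ m = 1) :
    IsIntegral ℤ A.trace ∧ IsIntegral ℤ A.det := by
  have hroot : ∀ μ ∈ A.charpoly.roots, IsIntegral ℤ μ := by
    intro μ hμ
    have h1 : μ ^ m = 1 := pow_eq_one_of_isRoot_charpoly A hA (Polynomial.isRoot_of_mem_roots hμ)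
    exact IsIntegral.of_pow hm (h1 ▸ isIntegral_one)
  constructor
  · rw [Matrix.trace_eq_sum_roots_charpoly]
    exact IsIntegral.multiset_sum hroot
  · rw [Matrix.det_eq_prod_roots_charpoly]
    exact IsIntegral.multiset_prod hroot

end Fermat.Agent.S48.LF
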