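import Fermat.Agent.S48.LF.Perm

/-!
# S48 / LF-Lift : lifting a representation of a finite group along `res : B → κ`

`B` a local ring, `res : B → κ` a surjective local homomorphism onto a field, `|G| ≠ 0` in `κ`.  Hypothesis `IL`:
idempotents of `M_{G × d}(κ)` lift to POLYNOMIALS in any given lift (LF-Idem).  CLAIM: every
`r0 : G →* M_d(κ)` lifts to `r : G →* M_d(B)`.

PROOF.  `u0 := |G|⁻¹ ∈ κ`, `Ē := colE r0`, `F̄ := u0 • rowF r0`, `ē := Ē F̄ = conv (u0 • r0)`.  By LF-Perm:
`F̄ Ē = 1`, `F̄ (perm g) Ē = r0 g`; so `ē² = ē`.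
1. choose `ĉ g ∈ M_d(B)` lifting `u0 • r0 g` (`exists_map_eq`), `x := conv ĉ`; `x.map res = ē` (`conv_map`);
   `x` commutes with all `perm g` (`perm_mul_conv`).
2. `IL x` gives `P`, `e := aeval x P`: idempotent, `e.map res = ē`, commutes with all `perm g`
   (`commute_aeval`).
3. choose lifts `E0`, `F0` of `Ē`, `F̄`.  `E1 := e E0`, `F1 := F0 e`, `w := F1 E1`; `w.map res = F̄ ē ē Ē = 1`, so `w`
   is invertible (`isUnit_of_map_eq_one`); `F2 := w⁻¹ F1`.  Then `F2 E1 = 1`, `e E1 = E1`, `F2 e = F2`.
4. `e' := E1 F2`; `f := e - e'` is idempotent (`e e' = e' = e' e`, `e'² = e'`) and `f.map res = ē - Ē F̄ = 0`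
   (`(w⁻¹).map res = 1`), so `f = 0` (`eq_zero_of_idempotent_of_map_eq_zero`): `e = E1 F2`.
5. `r g := F2 (perm g) E1`.  `r 1 = F2 E1 = 1`;
   `r g r g' = F2 (perm g) e (perm g') E1 = F2 e (perm g)(perm g') E1 = F2 (perm (g g')) E1`.
   `(r g).map res = F̄ (perm g) Ē = r0 g`.
-/

set_option autoImplicit false

namespace Fermat.Agent.S48.LF

open Matrix Polynomial

section aux

variable {B κ : Type*} [CommRing B] [Field κ] (res : B →+* κ)

theorem exists_map_eq (hres : Function.Surjective res) {m n : Type*} (M : Matrix m n κ) :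
    ∃ M' : Matrix m n B, M'.map res = M := by
  choose f hf using hres
  exact ⟨M.map f, by ext i j; simp [hf]⟩

theorem commute_aeval {A : Type*} [Ring A] [Algebra B A] {x y : A} (h : Commute y x) (P : B[X]) :
    Commute y (aeval x P) := by
  induction P using Polynomial.induction_on' with
  | add p q hp hq => rw [map_add]; exact hp.add_right hq
  | monomial n a =>
    rw [aeval_monomial]
    exact Commute.mul_right (show Commute y (algebraMap B A a) from (Algebra.commutes a y).symm)
      (h.pow_right n)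

variable [IsLocalHom res] {n : Type*} [Fintype n] [DecidableEq n]

theorem isUnit_of_map_eq_one (w : Matrix n n B) (hw : w.map res = 1) : IsUnit w := by
  rw [Matrix.isUnit_iff_isUnit_det]
  apply isUnit_of_map_unit res
  have : res w.det = (res.mapMatrix w).det := RingHom.map_det res w
  rw [this]
  have h2 : res.mapMatrix w = 1 := hw
  rw [h2, det_one]
  exact isUnit_one

theorem eq_zero_of_idempotent_of_map_eq_zero (f : Matrix n n B) (hf : IsIdempotentElem f)
    (h0 : f.map res = 0) : f = 0 := by
  have h1 : IsUnit (1 - f) := by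
    apply isUnit_of_map_eq_one res
    have : (1 - f).map res = res.mapMatrix (1 - f) := rfl
    rw [this, map_sub, map_one]
    have h2 : res.mapMatrix f = 0 := h0
    rw [h2, sub_zero]
  have h2 : f * (1 - f) = 0 := by
    rw [mul_sub, mul_one, hf.eq, sub_self]
  exact (h1.mul_left_eq_zero).1 h2

end aux

variable {B κ G d : Type*} [CommRing B] [Field κ] [Group G] [Fintype G] [DecidableEq G]
  [Fintype d] [DecidableEq d]

/-- **LF-Lift.** -/
theorem exists_lift_of_IL (res : B →+* κ) (hres : Function.Surjective res) [IsLocalHom res]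
    (IL : ∀ x : Matrix (G × d) (G × d) B, IsIdempotentElem (x.map res) →
      ∃ P : B[X], IsIdempotentElem (aeval x P) ∧ (aeval x P).map res = x.map res)
    (hG : (Fintype.card G : κ) ≠ 0) (r0 : G →* Matrix d d κ) :
    ∃ r : G →* Matrix d d B, ∀ g, (r g).map res = r0 g := by
  classical
  set u0 : κ := (Fintype.card G : κ)⁻¹ with hu0
  set Eb : Matrix (G × d) d κ := colE r0 with hEb
  set Fb : Matrix d (G × d) κ := u0 • rowF r0 with hFb
  set eb : Matrix (G × d) (G × d) κ := Eb * Fb with heb
  have hFE : Fb * Eb = 1 := by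
    rw [hFb, hEb, Matrix.smul_mul, rowF_mul_colE, smul_smul, hu0, inv_mul_cancel₀ hG, one_smul]
  have hFpE : ∀ g, Fb * perm κ d g * Eb = r0 g := by
    intro g
    rw [hFb, hEb, Matrix.smul_mul, Matrix.smul_mul, rowF_mul_perm_mul_colE, smul_smul, hu0,
      inv_mul_cancel₀ hG, one_smul]
  have hebconv : eb = conv (fun g => u0 • r0 g) := by
    rw [heb, hFb, hEb, Matrix.mul_smul, colE_mul_rowF]
    ext a b
    simp [conv]
  have hFe : Fb * eb = Fb := by
    rw [heb, ← Matrix.mul_assoc, hFE, Matrix.one_mul]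
  have heE : eb * Eb = Eb := by
    rw [heb, Matrix.mul_assoc, hFE, Matrix.mul_one]
  have hee : eb * eb = eb := by
    conv_lhs => rw [heb]
    rw [Matrix.mul_assoc, hFe]
  -- step 1
  choose c hc using fun g : G => exists_map_eq res hres (u0 • r0 g)
  set x : Matrix (G × d) (G × d) B := conv c with hx
  have hxmap : x.map res = eb := by
    rw [hx, conv_map, hebconv]
    congr 1
    funext g
    exact hc g
  have hxcomm : ∀ g, Commute (perm B d g) x := fun g => perm_mul_conv g c
  -- step 2
  obtain ⟨P, hPid, hPmap⟩ := IL x (by rw [hxmap]; exact hee)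
  set e : Matrix (G × d) (G × d) B := aeval x P with he
  have hemap : e.map res = eb := by rw [hPmap, hxmap]
  have hecomm : ∀ g, perm B d g * e = e * perm B d g := fun g => commute_aeval (hxcomm g) P
  have heid : e * e = e := hPid
  -- step 3
  obtain ⟨E0, hE0⟩ := exists_map_eq res hres Eb
  obtain ⟨F0, hF0⟩ := exists_map_eq res hres Fb
  set E1 : Matrix (G × d) d B := e * E0 with hE1
  set F1 : Matrix d (G × d) B := F0 * e with hF1
  set w : Matrix d d B := F1 * E1 with hw
  have hE1map : E1.map res = Eb := by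
    rw [hE1, Matrix.map_mul, hemap, hE0, heE]
  have hF1map : F1.map res = Fb := by
    rw [hF1, Matrix.map_mul, hemap, hF0, hFe]
  have hwmap : w.map res = 1 := by
    rw [hw, Matrix.map_mul, hE1map, hF1map, hFE]
  have hwu : IsUnit w := isUnit_of_map_eq_one res w hwmap
  have hwdet : IsUnit w.det := (Matrix.isUnit_iff_isUnit_det w).1 hwu
  have hwinv : w⁻¹ * w = 1 := Matrix.nonsing_inv_mul w hwdet
  have hwinvmap : (w⁻¹).map res = 1 := by
    have := congrArg (fun M => M.map res) hwinv
    simp only [Matrix.map_mul, hwmap, Matrix.mul_one] at this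
    rw [this]
    ext i j
    simp [Matrix.one_apply, apply_ite res]
  set F2 : Matrix d (G × d) B := w⁻¹ * F1 with hF2
  have hF2E1 : F2 * E1 = 1 := by
    rw [hF2, Matrix.mul_assoc, ← hw, hwinv]
  have heE1 : e * E1 = E1 := by
    rw [hE1, ← Matrix.mul_assoc, heid]
  have hF2e : F2 * e = F2 := by
    rw [hF2, hF1, Matrix.mul_assoc, Matrix.mul_assoc, heid]
  have hF2map : F2.map res = Fb := by
    rw [hF2, Matrix.map_mul, hwinvmap, hF1map, Matrix.one_mul]
  -- step 4
  have hef : e = E1 * F2 := by
    have h1 : e * (E1 * F2) = E1 * F2 := by rw [← Matrix.mul_assoc, heE1]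
    have h2 : (E1 * F2) * e = E1 * F2 := by rw [Matrix.mul_assoc, hF2e]
    have h3 : (E1 * F2) * (E1 * F2) = E1 * F2 := by
      rw [Matrix.mul_assoc, ← Matrix.mul_assoc F2, hF2E1, Matrix.one_mul]
    have hid : IsIdempotentElem (e - E1 * F2) := by
      unfold IsIdempotentElem
      rw [sub_mul, mul_sub, mul_sub, heid, h1, h2, h3]
      abel
    have hmap0 : (e - E1 * F2).map res = 0 := by
      have : (e - E1 * F2).map res = e.map res - (E1 * F2).map res := by
        ext i j
        simp only [Matrix.map_apply, Matrix.sub_apply, map_sub]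
      rw [this, Matrix.map_mul, hemap, hE1map, hF2map, ← heb, sub_self]
    exact sub_eq_zero.1 (eq_zero_of_idempotent_of_map_eq_zero res _ hid hmap0)
  -- step 5
  refine ⟨{ toFun := fun g => F2 * perm B d g * E1, map_one' := ?_, map_mul' := ?_ }, ?_⟩
  · rw [perm_one, Matrix.mul_one, hF2E1]
  · intro g g'
    have : F2 * perm B d g * E1 * (F2 * perm B d g' * E1)
        = F2 * perm B d g * (E1 * F2) * perm B d g' * E1 := by
      simp only [Matrix.mul_assoc]
    have h2 : F2 * perm B d g * e * perm B d g' * E1 = F2 * perm B d (g * g') * E1 := by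
      rw [Matrix.mul_assoc F2 (perm B d g) e, hecomm, ← Matrix.mul_assoc F2, hF2e,
        Matrix.mul_assoc F2 (perm B d g), perm_mul]
    rw [this, ← hef, h2]
  · intro g
    show (F2 * perm B d g * E1).map res = r0 g
    rw [Matrix.map_mul, Matrix.map_mul, hF2map, hE1map, perm_map, hFpE]

end Fermat.Agent.S48.LF
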