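import Mathlib

/-!
# S48 / LF-Val : a valuation ring of `ℂ` dominating `(ℤ̄, ker φ)`

PROOF.  `A := (integralClosure ℤ ℂ).toSubring`, `I := ker φ ≠ ⊤` (`k` is nontrivial).
`Ideal.image_subset_nonunits_valuationSubring I hI` gives `B : ValuationSubring ℂ` with `A ≤ B.toSubring`
and `A.subtype '' I ⊆ B.nonunits`.  Let `ι : ℤ̄ →+* B` be the inclusion (`Subring.inclusion`).
`(IsLocalRing.residue B).comp ι` kills `ker φ` (a nonunit of `B` lies in the maximal ideal:
`ValuationSubring.mem_nonunits_iff_exists_mem_maximalIdeal`, `IsLocalRing.residue_eq_zero_iff`), so it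
factors through the surjection `φ`: `j := RingHom.liftOfSurjective φ hφ ⟨_, _⟩`,
`RingHom.liftOfRightInverse_comp_apply`.
-/

set_option autoImplicit false

namespace Fermat.Agent.S48.LF

theorem exists_valuationSubring {k : Type*} [Field k] (φ : integralClosure ℤ ℂ →+* k)
    (hφ : Function.Surjective φ) :
    ∃ (B : ValuationSubring ℂ) (j : k →+* IsLocalRing.ResidueField B),
      ∀ z : integralClosure ℤ ℂ, ∃ h : (z : ℂ) ∈ B,
        IsLocalRing.residue B ⟨(z : ℂ), h⟩ = j (φ z) := by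
  classical
  have hI : RingHom.ker φ ≠ ⊤ := RingHom.ker_ne_top φ
  obtain ⟨B, hAB, hnon⟩ := Ideal.image_subset_nonunits_valuationSubring
    (A := (integralClosure ℤ ℂ).toSubring) (K := ℂ) (RingHom.ker φ) hI
  let ι : integralClosure ℤ ℂ →+* B := Subring.inclusion hAB
  have hker : RingHom.ker φ ≤ RingHom.ker ((IsLocalRing.residue B).comp ι) := by
    intro z hz
    rw [RingHom.mem_ker, RingHom.comp_apply, IsLocalRing.residue_eq_zero_iff]
    have h1 : (z : ℂ) ∈ B.nonunits := hnon ⟨z, hz, rfl⟩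
    obtain ⟨h2, h3⟩ := ValuationSubring.mem_nonunits_iff_exists_mem_maximalIdeal.1 h1
    exact h3
  refine ⟨B, RingHom.liftOfSurjective φ hφ ⟨(IsLocalRing.residue B).comp ι, hker⟩, fun z => ⟨hAB z.2, ?_⟩⟩
  have := RingHom.liftOfRightInverse_comp_apply φ _ (Function.rightInverse_surjInv hφ)
    ⟨(IsLocalRing.residue B).comp ι, hker⟩ z
  exact this.symm

end Fermat.Agent.S48.LF
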