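import Fermat.Agent.S48.Defs
import Fermat.Agent.S48.LF.Val
import Fermat.Agent.S48.LF.Idem
import Fermat.Agent.S48.LF.Lift
import Fermat.Agent.S48.LF.Integral

/-!
# S48 / LF : lifting representations of groups of order prime to `ℓ` to characteristic zero

Blueprint: board #1228 (LF), refined in the headers of `LF/{Val,Idem,Perm,Lift,Integral}.lean`:
`B ⊂ ℂ` a valuation ring dominating `(ℤ̄, ker φ)`, residue field `κ ⊇ k`; `rbar` lifts to `G → GL₂(B)`.
-/

set_option autoImplicit false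

namespace Fermat.Agent.S48.LF

open Matrix

/-- **LF.** -/
theorem main {k : Type} [Field k] (ℓ : ℕ) [CharP k ℓ] (hℓ : ℓ.Prime) (φ : Zbar →+* k)
    (hφ : Function.Surjective φ) {G : Type} [Group G] [Finite G] (hG : ¬ ℓ ∣ Nat.card G)
    (rbar : G →* GL (Fin 2) k) :
    ∃ r : G →* GL (Fin 2) ℂ, ∀ g : G, ∃ t d : Zbar,
      (t : ℂ) = ((r g : GL (Fin 2) ℂ) : Matrix (Fin 2) (Fin 2) ℂ).trace ∧
      (d : ℂ) = ((r g : GL (Fin 2) ℂ) : Matrix (Fin 2) (Fin 2) ℂ).det ∧
      φ t = ((rbar g : GL (Fin 2) k) : Matrix (Fin 2) (Fin 2) k).trace ∧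
      φ d = ((rbar g : GL (Fin 2) k) : Matrix (Fin 2) (Fin 2) k).det := by
  classical
  have := Fintype.ofFinite G
  obtain ⟨B, j, hj⟩ := exists_valuationSubring φ hφ
  let res := IsLocalRing.residue B
  -- the representation over the residue field of `B`
  let r0 : G →* Matrix (Fin 2) (Fin 2) (IsLocalRing.ResidueField B) :=
    ((j.mapMatrix : Matrix (Fin 2) (Fin 2) k →+* _) : Matrix (Fin 2) (Fin 2) k →* _).comp
      ((Units.coeHom _).comp rbar)
  have hr0 : ∀ g, r0 g = ((rbar g : GL (Fin 2) k) : Matrix (Fin 2) (Fin 2) k).map j := fun g => rfl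
  have hcard : (Fintype.card G : IsLocalRing.ResidueField B) ≠ 0 := by
    rw [← map_natCast j, Ne, map_eq_zero_iff j j.injective, CharP.cast_eq_zero_iff k ℓ,
      ← Nat.card_eq_fintype_card]
    exact hG
  obtain ⟨rB, hrB⟩ := exists_lift_of_IL (G := G) (d := Fin 2) res IsLocalRing.residue_surjective
    (fun x hx => exists_idempotent_lift B x hx) hcard r0
  let rC : G →* Matrix (Fin 2) (Fin 2) ℂ :=
    ((B.subtype.mapMatrix : Matrix (Fin 2) (Fin 2) B →+* _) : Matrix (Fin 2) (Fin 2) B →* _).comp rB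
  have hrC : ∀ g, rC g = (rB g).map B.subtype := fun g => rfl
  refine ⟨rC.toHomUnits, fun g => ?_⟩
  have hcoe : ((rC.toHomUnits g : GL (Fin 2) ℂ) : Matrix (Fin 2) (Fin 2) ℂ) = rC g := rfl
  have hpow : rC g ^ Fintype.card G = 1 := by
    rw [← map_pow, pow_card_eq_one, map_one]
  obtain ⟨ht, hd⟩ := isIntegral_trace_det_of_pow_eq_one (rC g) Fintype.card_pos hpow
  refine ⟨⟨_, ht⟩, ⟨_, hd⟩, by rw [hcoe], by rw [hcoe], ?_, ?_⟩
  · apply j.injective
    obtain ⟨h, h'⟩ := hj ⟨_, ht⟩
    rw [← h']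
    have h1 : (⟨(rC g).trace, h⟩ : B) = (rB g).trace := by
      apply Subtype.ext
      change (rC g).trace = B.subtype (rB g).trace
      rw [hrC, AddMonoidHom.map_trace]
    rw [h1]
    change res (rB g).trace = _
    rw [AddMonoidHom.map_trace, AddMonoidHom.map_trace]
    have := hrB g
    rw [hr0] at this
    exact congrArg Matrix.trace this
  · apply j.injective
    obtain ⟨h, h'⟩ := hj ⟨_, hd⟩
    rw [← h']
    have h1 : (⟨(rC g).det, h⟩ : B) = (rB g).det := by
      apply Subtype.ext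
      change (rC g).det = B.subtype (rB g).det
      rw [hrC, RingHom.map_det]
      rfl
    rw [h1]
    change res (rB g).det = _
    rw [RingHom.map_det, RingHom.map_det]
    have := hrB g
    rw [hr0] at this
    exact congrArg Matrix.det this

end Fermat.Agent.S48.LF
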