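import Mathlib

/-!
# S48 / LF-Perm : the regular representation in matrix form

`G` a finite group, `d` a finite index set, `R` a commutative ring; matrices indexed by `G × d`.
All proofs: `ext ⟨h, i⟩ ⟨h', j⟩`, `Matrix.mul_apply`, `Fintype.sum_prod_type`, `Finset.sum_ite_eq`, and the two
formulas `perm_mul_apply`, `mul_perm_apply`.
-/

set_option autoImplicit false

namespace Fermat.Agent.S48.LF

open Matrix

variable {R S G d m : Type*} [CommRing R] [CommRing S] [Group G] [Fintype G] [DecidableEq G]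
  [Fintype d] [DecidableEq d] [Fintype m]

/-- right translation by `g`: `(perm g *ᵥ F)(h, i) = F (h g, i)`. -/
def perm (R : Type*) (d : Type*) [CommRing R] [DecidableEq d] (g : G) :
    Matrix (G × d) (G × d) R :=
  fun a b => if b.1 = a.1 * g ∧ b.2 = a.2 then 1 else 0

/-- the matrix `((h,i),(h',j)) ↦ c (h h'⁻¹)_{ij}`. -/
def conv (c : G → Matrix d d R) : Matrix (G × d) (G × d) R :=
  fun a b => c (a.1 * b.1⁻¹) a.2 b.2

/-- the matrix `((h,i), j) ↦ c(h)_{ij}`. -/
def colE (c : G → Matrix d d R) : Matrix (G × d) d R := fun a j => c a.1 a.2 j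

/-- the matrix `(i, (h,j)) ↦ c(h⁻¹)_{ij}`. -/
def rowF (c : G → Matrix d d R) : Matrix d (G × d) R := fun i b => c b.1⁻¹ i b.2

theorem perm_mul_apply (g : G) (M : Matrix (G × d) m R) (a : G × d) (b : m) :
    (perm R d g * M) a b = M (a.1 * g, a.2) b := by
  rw [Matrix.mul_apply, Finset.sum_eq_single (a.1 * g, a.2)]
  · simp [perm]
  · intro x _ hx
    have : ¬ (x.1 = a.1 * g ∧ x.2 = a.2) := fun h => hx (Prod.ext h.1 h.2)
    simp [perm, this]
  · intro h; exact absurd (Finset.mem_univ _) h

theorem mul_perm_apply (g : G) (M : Matrix m (G × d) R) (a : m) (b : G × d) :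
    (M * perm R d g) a b = M a (b.1 * g⁻¹, b.2) := by
  rw [Matrix.mul_apply, Finset.sum_eq_single (b.1 * g⁻¹, b.2)]
  · simp [perm]
  · intro x _ hx
    have : ¬ (b.1 = x.1 * g ∧ b.2 = x.2) := fun h => hx (Prod.ext (by rw [h.1]; simp) h.2.symm)
    simp [perm, this]
  · intro h; exact absurd (Finset.mem_univ _) h

theorem perm_one : perm R d (1 : G) = 1 := by
  ext a b
  by_cases h : a = b
  · subst h; simp [perm]
  · have : ¬ (b.1 = a.1 * 1 ∧ b.2 = a.2) := fun h' => h (Prod.ext (by simpa using h'.1.symm) h'.2.symm)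
    rw [Matrix.one_apply_ne h]
    simp only [perm, if_neg this]

theorem perm_mul (g g' : G) : perm R d g * perm R d g' = perm R d (g * g') := by
  ext a b
  rw [perm_mul_apply]
  simp [perm, mul_assoc]

theorem perm_map (f : R →+* S) (g : G) : (perm R d g).map f = perm S d g := by
  ext a b
  simp only [perm, Matrix.map_apply]
  split_ifs <;> simp

theorem conv_map (f : R →+* S) (c : G → Matrix d d R) :
    (conv c).map f = conv (fun g => (c g).map f) := by
  ext a b
  rfl

theorem perm_mul_conv (g : G) (c : G → Matrix d d R) :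
    perm R d g * conv c = conv c * perm R d g := by
  ext a b
  rw [perm_mul_apply, mul_perm_apply]
  simp [conv, mul_assoc]

theorem colE_mul_rowF (ρ : G →* Matrix d d R) : colE ρ * rowF ρ = conv ρ := by
  ext a b
  rw [Matrix.mul_apply]
  simp only [colE, rowF, conv, map_mul, Matrix.mul_apply]

theorem rowF_mul_perm_mul_colE (ρ : G →* Matrix d d R) (g : G) :
    rowF ρ * perm R d g * colE ρ = (Fintype.card G : R) • ρ g := by
  ext i j
  rw [Matrix.mul_assoc, Matrix.mul_apply, Fintype.sum_prod_type]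
  have h : ∀ x : G, ∑ y : d, rowF (⇑ρ) i (x, y) * (perm R d g * colE ⇑ρ) (x, y) j = ρ g i j := by
    intro x
    have h1 : ∀ y : d, rowF (⇑ρ) i (x, y) * (perm R d g * colE ⇑ρ) (x, y) j
        = ρ x⁻¹ i y * ρ (x * g) y j := by
      intro y
      rw [perm_mul_apply]
      rfl
    rw [Finset.sum_congr rfl (fun y _ => h1 y), ← Matrix.mul_apply, ← map_mul]
    simp
  rw [Finset.sum_congr rfl (fun x _ => h x)]
  simp [Matrix.smul_apply]

theorem rowF_mul_colE (ρ : G →* Matrix d d R) :
    rowF ρ * colE ρ = (Fintype.card G : R) • (1 : Matrix d d R) := by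
  have := rowF_mul_perm_mul_colE ρ (1 : G)
  rwa [perm_one, Matrix.mul_one, map_one] at this

end Fermat.Agent.S48.LF
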